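import Fermat.Agent.CM.OddOrder.Coeff
import Fermat.Agent.CM.LatticeTheta
import Fermat.Agent.Deform.EigenLift
import Mathlib.NumberTheory.DirichletCharacter.Basic

/-!
# The theta series of the Grössencharakter of `ℚ(√-D)` and its quadratic twists

On `(X, Y)` with `X + Y` even, standing for `α = (X - Y) / 2 + Y ω`, the function is
`χ (α) ψ (N α)`; its lattice sum is a cusp form of weight two with the coefficients `ψ (n) c (n)`.
-/

set_option autoImplicit false

noncomputable section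

open CongruenceSubgroup
open scoped QuadraticAlgebra

namespace FA.CM.OddOrder

variable (D : ℕ) {m : ℕ} [hDm : Fact (D + 1 = 4 * m)] [hD : Fact D.Prime] {q : ℕ}

variable (m) in
/-- The function on `ℤ²`. -/
def oddWeight (ψ : DirichletCharacter ℂ q) (a b : ℤ) : ℂ :=
  if (a + b) % 2 = 0 then
    (oddChar D m ⟨(a - b) / 2, b⟩ : ℂ) * ψ (((⟨(a - b) / 2, b⟩ : OddInt m).norm : ℤ) : ZMod q)
  else 0

variable (ψ : DirichletCharacter ℂ q)

theorem oddWeight_periodic (a b s t : ℤ) :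
    oddWeight D m ψ (a + 4 * D * q * s) (b + 4 * D * q * t) = oddWeight D m ψ a b := by
  set e : ℤ := 2 * D * q * (s - t) with he
  have e1 : a + 4 * D * q * s + (b + 4 * D * q * t) =
      a + b + 2 * (2 * D * q * (s + t)) := by ring
  have h : (a + b + 2 * (2 * D * q * (s + t))) % 2 = (a + b) % 2 := by omega
  have e2 : a + 4 * D * q * s - (b + 4 * D * q * t) = a - b + 2 * e := by rw [he]; ring
  have h' : (a - b + 2 * e) / 2 = (a - b) / 2 + e := by omega
  rw [oddWeight, oddWeight, e1, h, e2, h']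
  refine if_congr Iff.rfl ?_ rfl
  congr 1
  · rw [oddChar, oddChar, red_apply, red_apply, he]
    push_cast
    rw [ZMod.natCast_self]
    ring_nf
  · rw [norm_eq, norm_eq, he]
    push_cast
    simp

theorem oddWeight_intCast_mul (hψ : ∀ u : (ZMod q)ˣ, ψ u * ψ u = 1) {d : ℕ} (h2 : Odd d)
    (hq : d.Coprime q) (a b : ℤ) :
    oddWeight D m ψ (d * a) (d * b) =
      (jacobiSym (-(D : ℤ)) d : ℂ) * oddWeight D m ψ a b := by
  have hodd : (d : ℤ) % 2 = 1 := by have := Nat.odd_iff.mp h2; omega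
  rw [oddWeight, oddWeight, ← mul_add, ← mul_sub]
  by_cases hab : (a + b) % 2 = 0
  · have e : (⟨((d : ℤ) * (a - b)) / 2, (d : ℤ) * b⟩ : OddInt m) =
        ((d : ℤ) : OddInt m) * ⟨(a - b) / 2, b⟩ := by
      rw [Int.mul_ediv_assoc _ (by omega)]
      ext <;> simp
    rw [if_pos hab, if_pos (by rw [Int.mul_emod, hab]; simp), e, oddChar_mul D, oddChar_intCast D,
      map_mul QuadraticAlgebra.norm, QuadraticAlgebra.norm_intCast, Int.cast_id,
      jacobiSym_neg_eq (m := m) D h2, Int.cast_natCast]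
    push_cast
    rw [map_mul ψ, pow_two ((d : ℕ) : ZMod q), map_mul ψ,
      show ((d : ℕ) : ZMod q) = ((ZMod.unitOfCoprime d hq : (ZMod q)ˣ) : ZMod q) from
        (ZMod.coe_unitOfCoprime d hq).symm, hψ]
    ring
  · rw [if_neg hab, mul_zero, if_neg]
    rw [Int.mul_emod, hodd, one_mul, Int.emod_emod_of_dvd _ dvd_rfl]
    exact hab

/-- **The theta coefficients.** -/
theorem sum_oddWeight [NeZero m] (n : ℕ) {s : Finset (ℤ × ℤ)}
    (hs : ∀ v : ℤ × ℤ, v ∈ s ↔ v.1 ^ 2 + (D : ℤ) * v.2 ^ 2 = 4 * (n : ℤ)) :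
    ∑ v ∈ s, oddWeight D m ψ v.1 v.2 * latLam D ((v.1 : ℂ), (v.2 : ℂ)) =
      4 * (ψ (n : ZMod q) * oddCoeff D m n) := by
  have heven : ∀ v ∈ s, (v.1 + v.2) % 2 = 0 := fun v hv => by
    have h := (hs v).mp hv
    have hDi : (D : ℤ) = 4 * (m : ℤ) - 1 := by have := hDm.out; omega
    have h2 : Prime (2 : ℤ) := Nat.prime_iff_prime_int.mp Nat.prime_two
    have : (2 : ℤ) ∣ v.1 + v.2 := h2.dvd_of_dvd_pow (n := 2)
      ⟨2 * n + v.1 * v.2 - (2 * (m : ℤ) - 1) * v.2 ^ 2, by
        linear_combination h - v.2 ^ 2 * hDi⟩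
    exact Int.emod_eq_zero_of_dvd this
  have key : ∑ α ∈ normSet m n, ψ (n : ZMod q) * ((oddChar D m α : ℂ) * (2 * toC D m α)) =
      4 * (ψ (n : ZMod q) * oddCoeff D m n) := by
    rw [← Finset.mul_sum, oddCoeff, oddSum, map_sum]
    simp only [map_mul, map_intCast, Finset.mul_sum]
    refine Finset.sum_congr rfl fun α _ => ?_
    ring
  rw [← key]
  refine Finset.sum_bij (fun v _ => (⟨(v.1 - v.2) / 2, v.2⟩ : OddInt m)) (fun v hv => ?_)
    (fun u hu v hv h => ?_) (fun α hα => ?_) (fun v hv => ?_)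
  · have he := heven v hv
    have hv' := (hs v).mp hv
    rw [mem_normSet]
    have h4 := four_mul_norm D (⟨(v.1 - v.2) / 2, v.2⟩ : OddInt m)
    rw [show 2 * ((v.1 - v.2) / 2) + v.2 = v.1 by omega] at h4
    linarith
  · have e1 := congrArg QuadraticAlgebra.re h
    have e2 := congrArg QuadraticAlgebra.im h
    simp only at e1 e2
    have := heven u hu
    have := heven v hv
    exact Prod.ext (by omega) e2
  · refine ⟨(2 * α.re + α.im, α.im), (hs _).mpr ?_, ?_⟩
    · rw [← four_mul_norm D, mem_normSet.mp hα]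
    · ext
      · show (2 * α.re + α.im - α.im) / 2 = α.re
        omega
      · rfl
  · have he := heven v hv
    have hv' := (hs v).mp hv
    have h4 := four_mul_norm D (⟨(v.1 - v.2) / 2, v.2⟩ : OddInt m)
    have h1 : 2 * ((v.1 - v.2) / 2) + v.2 = v.1 := by omega
    rw [h1] at h4
    rw [oddWeight, if_pos he, two_mul_toC D, latLam, h1,
      show (⟨(v.1 - v.2) / 2, v.2⟩ : OddInt m).norm = ((n : ℕ) : ℤ) by linarith, Int.cast_natCast]
    push_cast
    ring

/-- **The form.** -/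
theorem exists_oddForm [NeZero m] [NeZero q] (hψ : ∀ u : (ZMod q)ˣ, ψ u * ψ u = 1) :
    ∃ (N : ℕ) (f : CuspForm (Gamma0 N) 2), 0 < N ∧
      ∀ n : ℕ, ModularFormClass.qCoeff f n = ψ (n : ZMod q) * oddCoeff D m n := by
  have : NeZero D := ⟨hD.out.ne_zero⟩
  have : NeZero (D * q) := ⟨mul_ne_zero (NeZero.ne D) (NeZero.ne q)⟩
  have : NeZero (4 * (D * q)) := ⟨mul_ne_zero (by norm_num) (NeZero.ne (D * q))⟩
  obtain ⟨f, hf⟩ := exists_latForm_of_periodic (D := D) (e := 4) (M := 4 * (D * q)) (M' := D * q)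
    rfl (oddWeight D m ψ) (fun a b s t => by
      rw [← oddWeight_periodic D ψ a b s t]; push_cast; ring_nf)
    (fun v hv => by
      have he : (v.1 + v.2) % 2 = 0 := by
        by_contra h; exact hv (by rw [oddWeight, if_neg h])
      obtain ⟨u, hu⟩ := Int.dvd_of_emod_eq_zero he
      refine ⟨u ^ 2 - u * v.2 + (m : ℤ) * v.2 ^ 2, ?_⟩
      rw [latQ, show v.1 = 2 * u - v.2 by omega,
        show ((D : ℕ) : ℤ) = 4 * (m : ℤ) - 1 by have := hDm.out; omega]
      push_cast
      ring)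
    fun d hd a b => by
      have h2D : d.Coprime (2 * D) := hd.coprime_dvd_right (dvd_mul_right _ _)
      exact oddWeight_intCast_mul D ψ hψ
        (Nat.coprime_two_right.mp (h2D.coprime_dvd_right (dvd_mul_right 2 D)))
        (hd.coprime_dvd_right (Dvd.intro (2 * D * 4 * D) (by ring))) a b
  refine ⟨_, (4⁻¹ : ℂ) • f, Nat.pos_of_ne_zero (mul_ne_zero (mul_ne_zero (mul_ne_zero
    (by norm_num) (NeZero.ne D)) (NeZero.ne _)) (NeZero.ne _)), fun n => ?_⟩
  rw [← FA.Deform.qLin_apply, map_smul, Pi.smul_apply, FA.Deform.qLin_apply, hf,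
    sum_oddWeight D ψ n (fun v => by rw [mem_latSet]; simp [latQ]), smul_eq_mul]
  ring

end FA.CM.OddOrder

end
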