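import Fermat.Agent.CM.Cubic.Eisenstein
import Mathlib.NumberTheory.LegendreSymbol.JacobiSymbol
import Mathlib.NumberTheory.LegendreSymbol.QuadraticChar.Basic
import Mathlib.NumberTheory.LegendreSymbol.QuadraticChar.GaussSum

/-!
# The Hecke series of the Grössencharakter of `ℚ(√-D)` of conductor `√-D`, `D = 4 m - 1` prime

On `ℤ[ω]`, `ω² = ω - m`, let `χ (x + y ω)` be the quadratic character of `x + y / 2` modulo `D`.
Half the sums `∑ χ (α) α` over the elements of norm `n` satisfy at every prime the recursion of the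
L-function of a curve with complex multiplication by this ring and additive reduction at `D`. The
trace at a split prime is the `a` of `4 p = a² + D b²` with the character of `2` modulo `D`.
-/

set_option autoImplicit false

noncomputable section

open scoped QuadraticAlgebra

namespace FA.CM.OddOrder

/-- `ℤ[ω]` with `ω² = ω - m`. -/
abbrev OddInt (m : ℕ) : Type := QuadraticAlgebra ℤ (-(m : ℤ)) 1

variable (D m : ℕ)

/-- The complex root `(1 + i √D) / 2`. -/
def oddRoot : ℂ := ⟨1 / 2, Real.sqrt D / 2⟩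

variable {m}

theorem norm_eq (α : (OddInt m)) : α.norm = α.re ^ 2 + α.re * α.im + (m : ℤ) * α.im ^ 2 := by
  rw [QuadraticAlgebra.norm_def]; ring

theorem re_star (α : (OddInt m)) : (star α).re = α.re + α.im := by
  rw [QuadraticAlgebra.re_star]; ring

theorem four_mul_norm_self (α : OddInt m) :
    4 * α.norm = (2 * α.re + α.im) ^ 2 + (4 * (m : ℤ) - 1) * α.im ^ 2 := by
  rw [norm_eq]; ring

theorem norm_eq_zero [NeZero m] {α : (OddInt m)} : α.norm = 0 ↔ α = 0 := by
  refine ⟨fun h => ?_, fun h => by rw [h]; exact QuadraticAlgebra.norm_zero⟩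
  have h4 := four_mul_norm_self α
  rw [h, mul_zero] at h4
  have hm : (1 : ℤ) ≤ m := by exact_mod_cast Nat.one_le_iff_ne_zero.mpr (NeZero.ne m)
  have him : α.im = 0 := by
    by_contra him
    nlinarith [sq_nonneg (2 * α.re + α.im), sq_pos_of_ne_zero him]
  rw [norm_eq, him] at h
  exact QuadraticAlgebra.ext (by simpa using h) (by simpa using him)

instance noZeroDivisors [NeZero m] : NoZeroDivisors (OddInt m) where
  eq_zero_or_eq_zero_of_mul_eq_zero {a b} h := by
    have := congrArg QuadraticAlgebra.norm h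
    rw [map_mul, QuadraticAlgebra.norm_zero, mul_eq_zero] at this
    exact this.imp norm_eq_zero.mp norm_eq_zero.mp

instance isDomain [NeZero m] : IsDomain (OddInt m) := NoZeroDivisors.to_isDomain _

theorem norm_mul_star (α : (OddInt m)) : α * star α = (α.norm : (OddInt m)) := by
  ext <;> simp [norm_eq, pow_two] <;> ring

variable {K : Type*} [CommRing K] {c : K}

/-- The homomorphism `ω ↦ c`. -/
def evalOrd (hc : c ^ 2 - c + (m : K) = 0) : (OddInt m) →+* K :=
  (QuadraticAlgebra.lift ⟨c, by simp only [zsmul_eq_mul]; push_cast; linear_combination hc⟩ :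
    (OddInt m) →ₐ[ℤ] K).toRingHom

theorem evalOrd_apply (hc : c ^ 2 - c + (m : K) = 0) (α : (OddInt m)) :
    evalOrd hc α = (α.re : K) + (α.im : K) * c := by
  simp [evalOrd, QuadraticAlgebra.lift]

theorem conj_root (hc : c ^ 2 - c + (m : K) = 0) : (1 - c) ^ 2 - (1 - c) + (m : K) = 0 := by
  linear_combination hc

theorem evalOrd_star (hc : c ^ 2 - c + (m : K) = 0) (α : (OddInt m)) :
    evalOrd hc (star α) = evalOrd (conj_root hc) α := by
  rw [evalOrd_apply, evalOrd_apply, re_star, QuadraticAlgebra.im_star]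
  push_cast
  ring

variable [hDm : Fact (D + 1 = 4 * m)]
include hDm

theorem four_mul_norm (α : OddInt m) :
    4 * α.norm = (2 * α.re + α.im) ^ 2 + (D : ℤ) * α.im ^ 2 := by
  rw [four_mul_norm_self, show (D : ℤ) = 4 * (m : ℤ) - 1 by have := hDm.out; omega]

variable (m) in
theorem oddRoot_spec : oddRoot D ^ 2 - oddRoot D + (m : ℂ) = 0 := by
  have h := Real.mul_self_sqrt (Nat.cast_nonneg (α := ℝ) D)
  have e : (D : ℝ) = 4 * m - 1 := by
    have := congrArg (Nat.cast : ℕ → ℝ) hDm.out
    push_cast at this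
    linarith
  apply Complex.ext <;> simp [oddRoot, pow_two] <;> linarith

variable (m) in
/-- The complex embedding. -/
def toC : OddInt m →+* ℂ := evalOrd (oddRoot_spec D m)

theorem two_mul_toC (α : OddInt m) : 2 * toC D m α =
    ((2 * α.re + α.im : ℤ) : ℂ) + Complex.I * (Real.sqrt D : ℝ) * (α.im : ℂ) := by
  rw [toC, evalOrd_apply]
  apply Complex.ext <;> simp [oddRoot] <;> ring

theorem four_mul_zmod : (4 : ZMod D) * m = 1 := by
  have := congrArg (Nat.cast : ℕ → ZMod D) hDm.out
  simpa using this.symm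

theorem two_mul_zmod_spec : (2 * (m : ZMod D)) ^ 2 - 2 * (m : ZMod D) + (m : ZMod D) = 0 := by
  linear_combination (m : ZMod D) * four_mul_zmod (m := m) D

variable (m) in
/-- `ω ↦ 1 / 2` modulo `D`. -/
def red : OddInt m →+* ZMod D := evalOrd (two_mul_zmod_spec D)

theorem red_apply (α : OddInt m) :
    red D m α = (α.re : ZMod D) + 2 * (m : ZMod D) * (α.im : ZMod D) := by
  rw [red, evalOrd_apply, mul_comm (α.im : ZMod D)]

variable [hD : Fact D.Prime]
include hD

variable (m) in
/-- The character `α ↦ (red α / D)`. -/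
def oddChar (α : OddInt m) : ℤ := quadraticChar (ZMod D) (red D m α)

theorem oddChar_mul (α β : OddInt m) : oddChar D m (α * β) = oddChar D m α * oddChar D m β := by
  rw [oddChar, oddChar, oddChar, map_mul, map_mul]

theorem oddChar_intCast (n : ℤ) :
    oddChar D m (n : OddInt m) = quadraticChar (ZMod D) (n : ZMod D) := by
  rw [oddChar, map_intCast]

omit hD in
variable (m) in
theorem mod_four : D % 4 = 3 := by
  have := hDm.out; omega

/-- `χ` is odd. -/
theorem quadraticChar_neg_one_eq : quadraticChar (ZMod D) (-1) = -1 := by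
  have h4 := mod_four D m
  rw [quadraticChar_neg_one_iff_not_isSquare, ZMod.exists_sq_eq_neg_one_iff]
  omega

theorem quadraticChar_two_ne_zero : quadraticChar (ZMod D) 2 ≠ 0 := by
  rw [Ne, quadraticChar_eq_zero_iff]
  exact Ring.two_ne_zero ((ZMod.ringChar_zmod_n D).trans_ne (by have := mod_four D m; omega))

theorem oddChar_neg (α : OddInt m) : oddChar D m (-α) = -oddChar D m α := by
  rw [← neg_one_mul, oddChar_mul, show (-1 : OddInt m) = ((-1 : ℤ) : OddInt m) by simp,
    oddChar_intCast, Int.cast_neg, Int.cast_one, quadraticChar_neg_one_eq (m := m) D]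
  ring

/-- `(-D / d) = (d / D)`. -/
theorem jacobiSym_neg_eq {d : ℕ} (h2 : Odd d) :
    jacobiSym (-(D : ℤ)) d = quadraticChar (ZMod D) (d : ZMod D) := by
  have hDo : Odd D := Nat.odd_iff.mpr (by have := mod_four D m; omega)
  rw [show quadraticChar (ZMod D) (d : ZMod D) = legendreSym D (d : ℤ) by
      rw [legendreSym, Int.cast_natCast],
    jacobiSym.legendreSym.to_jacobiSym, jacobiSym.neg _ h2]
  rcases Nat.odd_mod_four_iff.mp (Nat.odd_iff.mp h2) with h | h
  · rw [ZMod.χ₄_nat_one_mod_four h, one_mul]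
    exact jacobiSym.quadratic_reciprocity_one_mod_four' hDo h
  · rw [ZMod.χ₄_nat_three_mod_four h, neg_one_mul,
      jacobiSym.quadratic_reciprocity_three_mod_four (mod_four D m) h, neg_neg]

omit hD hDm

open scoped Classical in
/-- The elements of norm `n`. -/
def normSet (m n : ℕ) : Finset (OddInt m) :=
  ((Finset.Icc (-(2 * n : ℤ)) (2 * n) ×ˢ Finset.Icc (-(2 * n : ℤ)) (2 * n)).image
    fun x => (⟨x.1, x.2⟩ : OddInt m)).filter fun α => α.norm = (n : ℤ)

theorem mem_normSet [NeZero m] {n : ℕ} {α : OddInt m} : α ∈ normSet m n ↔ α.norm = (n : ℤ) := by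
  simp only [normSet, Finset.mem_filter, and_iff_right_iff_imp, Finset.mem_image]
  intro h
  rw [norm_eq] at h
  have hm : (1 : ℤ) ≤ m := by exact_mod_cast Nat.one_le_iff_ne_zero.mpr (NeZero.ne m)
  have hmb : α.im ^ 2 ≤ (m : ℤ) * α.im ^ 2 := le_mul_of_one_le_left (sq_nonneg _) hm
  refine ⟨(α.re, α.im), ?_, rfl⟩
  simp only [Finset.mem_product, Finset.mem_Icc]
  have h1 : α.re ^ 2 ≤ 2 * n := by nlinarith [sq_nonneg (α.re + α.im), sq_nonneg α.im]
  have h2 : α.im ^ 2 ≤ 2 * n := by nlinarith [sq_nonneg (2 * α.re + α.im), sq_nonneg α.im]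
  refine ⟨⟨?_, ?_⟩, ?_, ?_⟩ <;>
    nlinarith [Int.le_self_sq α.re, Int.le_self_sq (-α.re), Int.le_self_sq α.im,
      Int.le_self_sq (-α.im)]

include hDm hD

variable (m) in
/-- `∑ χ (α) α`. -/
def oddSum (n : ℕ) : OddInt m := ∑ α ∈ normSet m n, (oddChar D m α : OddInt m) * α

variable (m) in
/-- The coefficients of the series. -/
def oddCoeff (n : ℕ) : ℂ := 1 / 2 * toC D m (oddSum D m n)

variable [NeZero m]

theorem oddCoeff_zero : oddCoeff D m 0 = 0 := by
  have h : oddSum D m 0 = 0 := Finset.sum_eq_zero fun α hα => by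
    rw [mem_normSet, Nat.cast_zero, norm_eq_zero] at hα
    simp [hα]
  rw [oddCoeff, h, map_zero, mul_zero]

theorem oddCoeff_one (hm : 2 ≤ m) : oddCoeff D m 1 = 1 := by
  have hD5 : (5 : ℤ) ≤ D := by have := hDm.out; omega
  have hset : normSet m 1 = {1, -1} := by
    ext α
    simp only [mem_normSet, Finset.mem_insert, Finset.mem_singleton]
    refine ⟨fun h => ?_, ?_⟩
    · have h4 := four_mul_norm D α
      rw [h, Nat.cast_one] at h4
      have him : α.im = 0 := by
        by_contra him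
        have h1 : 0 < α.im ^ 2 := sq_pos_of_ne_zero him
        nlinarith [sq_nonneg (2 * α.re + α.im), mul_le_mul_of_nonneg_right hD5 h1.le]
      rw [him] at h4
      rcases Int.eq_one_or_neg_one_of_mul_eq_one (show α.re * α.re = 1 by linarith) with e | e
      · exact Or.inl (QuadraticAlgebra.ext (by simpa using e) (by simpa using him))
      · exact Or.inr (QuadraticAlgebra.ext (by simpa using e) (by simpa using him))
    · rintro (rfl | rfl) <;> simp
  have h1 : oddChar D m 1 = 1 := by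
    rw [← Int.cast_one, oddChar_intCast D, Int.cast_one, map_one]
  rw [oddCoeff, oddSum, hset, Finset.sum_pair (by simp [QuadraticAlgebra.ext_iff]),
    oddChar_neg D, h1]
  simp only [Int.cast_one, Int.cast_neg, neg_mul_neg, one_mul, map_add, map_one]
  norm_num

theorem oddCoeff_ramified (n : ℕ) : oddCoeff D m (D * n) = 0 := by
  have h : oddSum D m (D * n) = 0 := Finset.sum_eq_zero fun α hα => by
    have h0 : red D m (α * star α) = 0 := by
      rw [norm_mul_star, map_intCast, mem_normSet.mp hα]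
      push_cast
      rw [ZMod.natCast_self, zero_mul]
    have hstar : red D m (star α) = red D m α := by
      rw [red_apply, red_apply, re_star, QuadraticAlgebra.im_star]
      push_cast
      linear_combination -(α.im : ZMod D) * four_mul_zmod (m := m) D
    rw [map_mul, hstar, mul_self_eq_zero] at h0
    rw [oddChar, h0, MulChar.map_zero, Int.cast_zero, zero_mul]
  rw [oddCoeff, h, map_zero, mul_zero]

/-- Removing a factor. -/
theorem sum_image_mul {π : (OddInt m)} (hπ : π ≠ 0) (n : ℕ) :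
    ∑ α ∈ (normSet m n).image (π * ·), (oddChar D m α : OddInt m) * α =
      (oddChar D m π : (OddInt m)) * π * oddSum D m n := by
  classical
  rw [Finset.sum_image fun x _ y _ h => mul_left_cancel₀ hπ h, oddSum, Finset.mul_sum]
  refine Finset.sum_congr rfl fun β _ => ?_
  rw [oddChar_mul D, Int.cast_mul]
  ring

omit hDm hD in
theorem mem_image_mul {π : (OddInt m)} {k n : ℕ} (hk : π.norm = (k : ℤ)) (hk0 : 0 < k)
    {α : (OddInt m)} :
    α ∈ (normSet m n).image (π * ·) ↔ α ∈ normSet m (k * n) ∧ π ∣ α := by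
  simp only [Finset.mem_image, mem_normSet]
  constructor
  · rintro ⟨β, h2, rfl⟩
    exact ⟨by rw [map_mul, hk, h2, Nat.cast_mul], dvd_mul_right _ _⟩
  · rintro ⟨h2, β, rfl⟩
    refine ⟨β, ?_, rfl⟩
    rw [map_mul, hk, Nat.cast_mul] at h2
    exact mul_left_cancel₀ (by exact_mod_cast hk0.ne') h2

omit hDm hD [NeZero m] in
theorem eq_zero_of_form_two : ∀ x y : ZMod 2, x ^ 2 + x * y + 1 * y ^ 2 = 0 → y = 0 := by
  decide

omit hDm hD [NeZero m] in
theorem natCast_dvd {p : ℕ} {α : (OddInt m)} (h1 : (p : ℤ) ∣ α.re) (h2 : (p : ℤ) ∣ α.im) :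
    (p : (OddInt m)) ∣ α := by
  obtain ⟨a, ha⟩ := h1
  obtain ⟨b, hb⟩ := h2
  refine ⟨⟨a, b⟩, ?_⟩
  ext <;> simp [ha, hb]

theorem oddCoeff_inert {p : ℕ} (hp : p.Prime) (hpD : p ≠ D)
    (h : ¬ IsSquare (-(D : ZMod p)) ∨ (p = 2 ∧ Odd m)) (n : ℕ) :
    oddCoeff D m (p * n) + (if p ∣ n then (p : ℂ) * oddCoeff D m (n / p) else 0) = 0 := by
  classical
  have := Fact.mk hp
  have hχ : oddChar D m (p : (OddInt m)) = -1 := by
    rw [← Int.cast_natCast, oddChar_intCast D, Int.cast_natCast]
    rcases eq_or_ne p 2 with rfl | hp2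
    · have hm : Odd m := by
        rcases h with h | ⟨-, h⟩
        · exact absurd ⟨(D : ZMod 2), by generalize (D : ZMod 2) = x; decide +revert⟩ h
        · exact h
      rw [Nat.cast_ofNat, quadraticChar_two ((ZMod.ringChar_zmod_n D).trans_ne hpD.symm),
        ZMod.card, ZMod.χ₈_nat_eq_if_mod_eight, if_neg (by have := hDm.out; omega), if_neg]
      have := hDm.out; obtain ⟨i, rfl⟩ := hm; omega
    · rw [← jacobiSym_neg_eq (m := m) D (Nat.Prime.odd_of_ne_two hp hp2),
        ← jacobiSym.legendreSym.to_jacobiSym, legendreSym.eq_neg_one_iff]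
      simpa using h.resolve_right fun h => hp2 h.1
  have hdiv : ∀ α ∈ normSet m (p * n), (p : (OddInt m)) ∣ α ∧ p ∣ n := fun α hα => by
    have hn := mem_normSet.mp hα
    have h0 : ((α.re ^ 2 + α.re * α.im + (m : ℤ) * α.im ^ 2 : ℤ) : ZMod p) = 0 := by
      rw [← norm_eq, hn]; push_cast; simp
    push_cast at h0
    have hb : (α.im : ZMod p) = 0 := by
      by_contra hb
      rcases h with h | ⟨rfl, hm⟩
      · refine h ⟨(2 * (α.re : ZMod p) + α.im) / α.im, ?_⟩
        have hD' : (D : ZMod p) + 1 = 4 * (m : ZMod p) := by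
          exact_mod_cast congrArg (Nat.cast : ℕ → ZMod p) hDm.out
        field_simp
        linear_combination -4 * h0 - (α.im : ZMod p) ^ 2 * hD'
      · rw [show (m : ZMod 2) = 1 by rw [ZMod.natCast_eq_one_iff_odd]; exact hm] at h0
        exact hb (eq_zero_of_form_two _ _ h0)
    have ha : (α.re : ZMod p) = 0 := by
      rw [hb] at h0
      simpa using h0
    have h2 : (p : (OddInt m)) ∣ α := natCast_dvd
      ((ZMod.intCast_zmod_eq_zero_iff_dvd _ p).mp ha) ((ZMod.intCast_zmod_eq_zero_iff_dvd _ p).mp hb)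
    refine ⟨h2, ?_⟩
    obtain ⟨β, rfl⟩ := h2
    rw [map_mul, QuadraticAlgebra.norm_natCast, Nat.cast_mul, pow_two, mul_assoc] at hn
    exact Int.natCast_dvd_natCast.mp ⟨β.norm,
      (mul_left_cancel₀ (Int.natCast_ne_zero.mpr hp.ne_zero) hn).symm⟩
  by_cases hn : p ∣ n
  · obtain ⟨k, rfl⟩ := hn
    have he : normSet m (p * (p * k)) = (normSet m k).image ((p : (OddInt m)) * ·) := by
      ext α
      rw [mem_image_mul (k := p * p) (by rw [QuadraticAlgebra.norm_natCast]; push_cast; ring)
        (Nat.mul_pos hp.pos hp.pos), mul_assoc]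
      exact ⟨fun h => ⟨h, (hdiv α h).1⟩, And.left⟩
    rw [if_pos (dvd_mul_right p k), Nat.mul_div_cancel_left _ hp.pos, oddCoeff, oddCoeff,
      oddSum, he, sum_image_mul D (Nat.cast_ne_zero.mpr hp.ne_zero), hχ, map_mul, map_mul,
      map_intCast, map_natCast, Int.cast_neg, Int.cast_one]
    unfold oddSum
    ring
  · rw [if_neg hn, add_zero, oddCoeff, oddSum,
      Finset.sum_eq_zero fun α hα => absurd (hdiv α hα).2 hn, map_zero, mul_zero]

theorem oddCoeff_split {p : ℕ} (hp : p.Prime) (hpD : p ≠ D) {a b : ℤ}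
    (h : 4 * (p : ℤ) = a ^ 2 + (D : ℤ) * b ^ 2)
    (ha : quadraticChar (ZMod D) (a : ZMod D) = quadraticChar (ZMod D) 2) (n : ℕ) :
    oddCoeff D m (p * n) + (if p ∣ n then (p : ℂ) * oddCoeff D m (n / p) else 0) =
      (a : ℂ) * oddCoeff D m n := by
  classical
  have := Fact.mk hp
  have hDi : (D : ℤ) = 4 * (m : ℤ) - 1 := by have := hDm.out; omega
  rw [hDi] at h
  obtain ⟨u, hu⟩ : (2 : ℤ) ∣ a - b := by
    have h2 : Prime (2 : ℤ) := Nat.prime_iff_prime_int.mp Nat.prime_two
    refine h2.dvd_of_dvd_pow (n := 2) ⟨2 * p - (2 * (m : ℤ) - 1) * b ^ 2 - a * b, ?_⟩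
    linear_combination -h
  set π : (OddInt m) := ⟨u, b⟩ with hπ
  have hπn : π.norm = (p : ℤ) := by
    rw [norm_eq, hπ]
    rw [show a = 2 * u + b by linarith] at h
    linarith
  have hπ'n : (star π).norm = (p : ℤ) := by rw [QuadraticAlgebra.norm_star, hπn]
  have hne : ∀ {x : (OddInt m)}, x.norm = (p : ℤ) → x ≠ 0 := fun hx e => by
    rw [e, QuadraticAlgebra.norm_zero] at hx
    exact hp.ne_zero (by exact_mod_cast hx.symm)
  have hred : ∀ x y : ℤ, 2 * x + y = a →
      quadraticChar (ZMod D) ((x : ZMod D) + 2 * (m : ZMod D) * (y : ZMod D)) = 1 := by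
    intro x y hxy
    refine mul_left_cancel₀ (quadraticChar_two_ne_zero (m := m) D) ?_
    rw [← map_mul, mul_one, ← ha, ← hxy]
    push_cast
    congr 1
    linear_combination (y : ZMod D) * four_mul_zmod (m := m) D
  have e1 : oddChar D m π = 1 := by
    rw [oddChar, red_apply]; exact hred u b (by linarith)
  have e2 : oddChar D m (star π) = 1 := by
    rw [oddChar, red_apply, re_star, QuadraticAlgebra.im_star, hπ]
    exact hred _ _ (by linarith)
  have hmul : π * star π = ((p : ℤ) : (OddInt m)) := by rw [norm_mul_star, hπn]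
  have hp1 : oddChar D m ((p : ℤ) : (OddInt m)) = 1 := by rw [← hmul, oddChar_mul D, e1, e2, one_mul]
  -- the two kernels
  have hb : (b : ZMod p) ≠ 0 := fun hb => by
    obtain ⟨b', rfl⟩ := (ZMod.intCast_zmod_eq_zero_iff_dvd b p).mp hb
    have hq := Nat.prime_iff_prime_int.mp hp
    have hpu : (p : ℤ) ∣ u := hq.dvd_of_dvd_pow (n := 2)
      ⟨1 - u * b' - (m : ℤ) * p * b' ^ 2, by rw [norm_eq, hπ] at hπn; linear_combination hπn⟩
    obtain ⟨u', rfl⟩ := hpu
    rw [norm_eq, hπ] at hπn
    have : (p : ℤ) ∣ 1 := ⟨u' ^ 2 + u' * b' + (m : ℤ) * b' ^ 2,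
      mul_left_cancel₀ (Int.natCast_ne_zero.mpr hp.ne_zero) (by linear_combination -hπn)⟩
    exact hp.not_dvd_one (Int.natCast_dvd_natCast.mp this)
  set c : ZMod p := -(u : ZMod p) / b with hc
  have hπz : (u : ZMod p) ^ 2 + u * b + (m : ZMod p) * (b : ZMod p) ^ 2 = 0 := by
    have := congrArg (Int.cast : ℤ → ZMod p) hπn
    rw [norm_eq, hπ] at this
    push_cast at this
    rw [this, ZMod.natCast_self]
  have hroot : c ^ 2 - c + (m : ZMod p) = 0 := by
    rw [hc]; field_simp; linear_combination hπz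
  have hroot' := conj_root hroot
  have hd : 2 * c - 1 ≠ 0 := fun e => by
    have hDz : (D : ZMod p) = 0 := by
      have hD' : (D : ZMod p) + 1 = 4 * (m : ZMod p) := by
        exact_mod_cast congrArg (Nat.cast : ℕ → ZMod p) hDm.out
      linear_combination hD' - (2 * c - 1) * e + 4 * hroot
    rw [ZMod.natCast_eq_zero_iff] at hDz
    exact hpD ((Nat.prime_dvd_prime_iff_eq hp hD.out).mp hDz)
  have hev1 : evalOrd hroot π = 0 := by
    rw [evalOrd_apply, hc, hπ]
    field_simp
    ring
  have hev2 : evalOrd hroot' (star π) = 0 := by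
    rw [evalOrd_star, evalOrd_apply, show 1 - (1 - c) = c by ring, ← evalOrd_apply hroot, hev1]
  have hboth : ∀ α, evalOrd hroot α = 0 → evalOrd hroot' α = 0 → (p : (OddInt m)) ∣ α := by
    intro α h1 h2
    rw [evalOrd_apply] at h1 h2
    have hbα : (α.im : ZMod p) = 0 := (mul_eq_zero.mp
      (show (α.im : ZMod p) * (2 * c - 1) = 0 by linear_combination h1 - h2)).resolve_right hd
    rw [hbα, zero_mul, add_zero] at h1
    exact natCast_dvd ((ZMod.intCast_zmod_eq_zero_iff_dvd _ p).mp h1)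
      ((ZMod.intCast_zmod_eq_zero_iff_dvd _ p).mp hbα)
  have hd1 : ∀ α, π ∣ α ↔ evalOrd hroot α = 0 := fun α => by
    refine ⟨fun ⟨β, hβ⟩ => by rw [hβ, map_mul, hev1, zero_mul], fun hα => ?_⟩
    obtain ⟨γ, hγ⟩ := hboth (α * star π) (by rw [map_mul, hα, zero_mul])
      (by rw [map_mul, hev2, mul_zero])
    refine ⟨γ, mul_right_cancel₀ (hne hπ'n) ?_⟩
    rw [hγ, mul_right_comm, hmul, Int.cast_natCast]
  have hd2 : ∀ α, star π ∣ α ↔ evalOrd hroot' α = 0 := fun α => by
    refine ⟨fun ⟨β, hβ⟩ => by rw [hβ, map_mul, hev2, zero_mul], fun hα => ?_⟩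
    obtain ⟨γ, hγ⟩ := hboth (α * π) (by rw [map_mul, hev1, mul_zero])
      (by rw [map_mul, hα, zero_mul])
    refine ⟨γ, mul_right_cancel₀ (hne hπn) ?_⟩
    rw [hγ, mul_right_comm, mul_comm (star π) π, hmul, Int.cast_natCast]
  set A := (normSet m n).image (π * ·)
  set B := (normSet m n).image (star π * ·)
  have hAB : A ∪ B = normSet m (p * n) := by
    ext α
    rw [Finset.mem_union, mem_image_mul hπn hp.pos, mem_image_mul hπ'n hp.pos]
    refine ⟨fun h => h.elim And.left And.left, fun h => ?_⟩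
    have h1 : evalOrd hroot (α * star α) = 0 := by
      rw [norm_mul_star, map_intCast, mem_normSet.mp h]
      push_cast
      simp
    rw [map_mul, evalOrd_star, mul_eq_zero, ← hd1, ← hd2] at h1
    exact h1.imp (⟨h, ·⟩) (⟨h, ·⟩)
  have hint : A ∩ B = if p ∣ n then
      (normSet m (n / p)).image (((p : ℤ) : (OddInt m)) * ·) else ∅ := by
    have hdvd : ∀ α, (α ∈ A ∩ B) ↔ α ∈ normSet m (p * n) ∧ ((p : ℤ) : (OddInt m)) ∣ α := fun α => by
      rw [Finset.mem_inter, mem_image_mul hπn hp.pos, mem_image_mul hπ'n hp.pos]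
      refine ⟨fun ⟨⟨h, h1⟩, _, h2⟩ => ⟨h, ?_⟩, fun ⟨h, h'⟩ => ?_⟩
      · rw [Int.cast_natCast]
        exact hboth α ((hd1 α).mp h1) ((hd2 α).mp h2)
      · rw [← hmul] at h'
        exact ⟨⟨h, dvd_of_mul_right_dvd h'⟩, h, dvd_of_mul_left_dvd h'⟩
    split_ifs with hn
    · obtain ⟨k, rfl⟩ := hn
      ext α
      rw [hdvd, Nat.mul_div_cancel_left _ hp.pos,
        mem_image_mul (k := p * p) (by rw [QuadraticAlgebra.norm_intCast]; push_cast; ring)
          (Nat.mul_pos hp.pos hp.pos), mul_assoc]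
    · refine Finset.eq_empty_iff_forall_notMem.mpr fun α hα => ?_
      obtain ⟨h, β, rfl⟩ := (hdvd α).mp hα
      have h' := mem_normSet.mp h
      rw [map_mul, QuadraticAlgebra.norm_intCast, Int.cast_id, Nat.cast_mul, pow_two, mul_assoc] at h'
      exact hn (Int.natCast_dvd_natCast.mp ⟨β.norm,
        (mul_left_cancel₀ (Int.natCast_ne_zero.mpr hp.ne_zero) h').symm⟩)
  have hsum := Finset.sum_union_inter (s₁ := A) (s₂ := B)
    (f := fun α => (oddChar D m α : OddInt m) * α)
  rw [hAB, hint, sum_image_mul D (hne hπn), sum_image_mul D (hne hπ'n), e1, e2, Int.cast_one,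
    one_mul, one_mul, ← add_mul] at hsum
  have htr : π + star π = ((a : ℤ) : (OddInt m)) := by
    ext <;> simp [hπ]; linarith
  rw [htr] at hsum
  have key := congrArg (toC D m) hsum
  simp only [map_add, map_mul, map_intCast] at key
  rw [show oddCoeff D m n = 1 / 2 * (toC D m) (oddSum D m n) from rfl, oddCoeff, oddSum]
  split_ifs at key ⊢ with hn
  · rw [sum_image_mul D (by
      rw [Int.cast_natCast]; exact Nat.cast_ne_zero.mpr hp.ne_zero), hp1, Int.cast_one, one_mul,
      map_mul, map_intCast] at key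
    rw [oddCoeff]
    push_cast at key ⊢
    linear_combination (1 / 2 : ℂ) * key
  · rw [Finset.sum_empty, map_zero] at key
    linear_combination (1 / 2 : ℂ) * key

end FA.CM.OddOrder

end
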